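import Fermat.Agent.S15.Q.Defs
import Fermat.Agent.Lib.InertiaField.Unram
import Fermat.Agent.Lib.InertiaField.Closed

/-!
# S15/Q node Q3: local analysis of a Kummer generator

`A` a place above `ℓ`.
* `padicValRat_eq_of_valuation`: `a ∈ ℚˣ`, `v_A(a) = v_A(ℓ) ^ m` implies `padicValRat ℓ a = m`.
  (Write `a = ℓ ^ v * (n / d)` with `ℓ ∤ n d`: `Unram.valuation_intCast_eq_one`; `v_A(ℓ) < 1` so `k ↦ v_A(ℓ)^k` is injective.)
* `valuation_of_mem_K0`: a nonzero element of the inertia field has valuation `v_A(ℓ) ^ k`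
  (`Fermat.Agent.Lib.InertiaField.exists_zpow_mul_unit`, see the use in `Fermat/Agent/S44/ES/Tame.lean`, `tame_inertia`).
* `dvd_padicValRat_of_peuRam`: `b ^ r = a ∈ ℚˣ`, `τ b = h τ * b` on inertia and `PeuRam A h`: the quotient `b / b'`
  (`b'` the unit of `PeuRam`) is fixed by inertia, so `v_A(b) = v_A(ℓ) ^ k`, `v_A(a) = v_A(ℓ) ^ (r k)`.
* `unrAt_peuRam`: `b' = 1`.   `valDvd_of_peuRam`, `valDvd_of_unrAt`: restatements (`b ≠ 0` because `a ≠ 0`, `r ≠ 0`).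
-/

set_option autoImplicit false

namespace Fermat.Agent.S15.Q

open Fermat.Agent.Lib.InertiaField

theorem Local.valuation_natCast (A : ValuationSubring Qb) (ℓ : ℕ) (hℓ : ℓ.Prime)
    (hA : A.LiesOverPrime ℓ) (n : ℕ) (hn : n ≠ 0) :
    A.valuation (n : Qb) = A.valuation (ℓ : Qb) ^ padicValNat ℓ n := by
  have : Fact ℓ.Prime := ⟨hℓ⟩
  obtain ⟨m, hm⟩ := pow_padicValNat_dvd (p := ℓ) (n := n)
  have hndvd : ¬ ℓ ∣ m := by
    rintro ⟨c, rfl⟩
    apply pow_succ_padicValNat_not_dvd (p := ℓ) hn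
    exact ⟨c, by rw [pow_succ, mul_assoc]; exact hm⟩
  have h1 : A.valuation ((m : ℤ) : Qb) = 1 :=
    Unram.valuation_intCast_eq_one hℓ hA (by exact_mod_cast hndvd)
  have h2 : (n : Qb) = (ℓ : Qb) ^ padicValNat ℓ n * ((m : ℤ) : Qb) := by
    conv_lhs => rw [hm]
    push_cast
    rfl
  rw [h2, map_mul, map_pow, h1, mul_one]

theorem Local.valuation_intCast (A : ValuationSubring Qb) (ℓ : ℕ) (hℓ : ℓ.Prime)
    (hA : A.LiesOverPrime ℓ) (n : ℤ) (hn : n ≠ 0) :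
    A.valuation (n : Qb) = A.valuation (ℓ : Qb) ^ padicValInt ℓ n := by
  have h0 : n.natAbs ≠ 0 := Int.natAbs_ne_zero.2 hn
  have h1 := Local.valuation_natCast A ℓ hℓ hA n.natAbs h0
  have h2 : A.valuation (n : Qb) = A.valuation (n.natAbs : Qb) := by
    rcases Int.natAbs_eq n with h | h
    · conv_lhs => rw [h]
      rw [Int.cast_natCast]
    · conv_lhs => rw [h]
      rw [Int.cast_neg, Valuation.map_neg, Int.cast_natCast]
  rw [h2, h1]
  rfl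

theorem Local.valuation_prime_lt_one (A : ValuationSubring Qb) (ℓ : ℕ)
    (hA : A.LiesOverPrime ℓ) : A.valuation (ℓ : Qb) < 1 :=
  (A.mem_nonunits_iff).1 hA

theorem Local.valuation_rat (A : ValuationSubring Qb) (ℓ : ℕ) (hℓ : ℓ.Prime)
    (hA : A.LiesOverPrime ℓ) (a : ℚ) (ha : a ≠ 0) :
    A.valuation (algebraMap ℚ Qb a) = A.valuation (ℓ : Qb) ^ padicValRat ℓ a := by
  have hℓ0 : A.valuation (ℓ : Qb) ≠ 0 :=
    (map_ne_zero _).2 (by exact_mod_cast hℓ.ne_zero)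
  have e : algebraMap ℚ Qb a = (a.num : Qb) / (a.den : Qb) := by
    conv_lhs => rw [← Rat.num_div_den a]
    rw [map_div₀, map_intCast, map_natCast]
  rw [e, map_div₀, Local.valuation_intCast A ℓ hℓ hA a.num (Rat.num_ne_zero.2 ha),
    Local.valuation_natCast A ℓ hℓ hA a.den a.den_ne_zero]
  show _ = A.valuation (ℓ : Qb) ^ ((padicValInt ℓ a.num : ℤ) - (padicValNat ℓ a.den : ℤ))
  rw [zpow_sub₀ hℓ0, zpow_natCast, zpow_natCast]

theorem padicValRat_eq_of_valuation (A : ValuationSubring Qb) (ℓ : ℕ) (hℓ : ℓ.Prime)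
    (hA : A.LiesOverPrime ℓ) (a : ℚ) (ha : a ≠ 0) (m : ℤ)
    (h : A.valuation (algebraMap ℚ Qb a) = A.valuation (ℓ : Qb) ^ m) : padicValRat ℓ a = m := by
  have hℓ0 : A.valuation (ℓ : Qb) ≠ 0 :=
    (map_ne_zero _).2 (by exact_mod_cast hℓ.ne_zero)
  rw [Local.valuation_rat A ℓ hℓ hA a ha] at h
  exact zpow_right_injective₀ (zero_lt_iff.2 hℓ0) (Local.valuation_prime_lt_one A ℓ hA).ne h

theorem valuation_of_mem_K0 (A : ValuationSubring Qb) (ℓ : ℕ) (hℓ : ℓ.Prime)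
    (hA : A.LiesOverPrime ℓ) (x : Qb) (hx : x ∈ K0 A) (hx0 : x ≠ 0) :
    ∃ k : ℤ, A.valuation x = A.valuation (ℓ : Qb) ^ k := by
  obtain ⟨k, u, -, hu, hu', hwu⟩ := exists_zpow_mul_unit A ℓ hℓ hA hx hx0
  refine ⟨k, ?_⟩
  have h1 : A.valuation u ≤ 1 := (A.valuation_le_one_iff u).mpr hu
  have h2 : A.valuation u⁻¹ ≤ 1 := (A.valuation_le_one_iff _).mpr hu'
  have hu0 : u ≠ 0 := by
    rintro rfl
    rw [mul_zero] at hwu
    exact hx0 hwu
  have hv0 : A.valuation u ≠ 0 := (map_ne_zero _).mpr hu0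
  have h3 : A.valuation u = 1 := by
    refine le_antisymm h1 ?_
    rw [map_inv₀] at h2
    exact (inv_le_one₀ (zero_lt_iff.mpr hv0)).mp h2
  rw [hwu, map_mul, map_zpow₀, h3, mul_one]

theorem unrAt_peuRam (A : ValuationSubring Qb) (h : GQ → Qb) (hu : UnrAt A h) : PeuRam A h := by
  refine ⟨1, map_one _, fun τ hτ => ?_⟩
  rw [hu τ hτ, map_one, mul_one]

theorem dvd_padicValRat_of_peuRam (A : ValuationSubring Qb) (ℓ : ℕ) (hℓ : ℓ.Prime)
    (hA : A.LiesOverPrime ℓ) (r : ℕ) (h : GQ → Qb) (hp : PeuRam A h) (b : Qb) (hb : b ≠ 0)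
    (hσ : ∀ σ ∈ A.inertiaSubgroupIn ℚ, σ b = h σ * b) (a : ℚ) (ha : a ≠ 0)
    (hab : algebraMap ℚ Qb a = b ^ r) : (r : ℤ) ∣ padicValRat ℓ a := by
  obtain ⟨b', hb'1, hb'σ⟩ := hp
  have hb'0 : b' ≠ 0 := by
    rintro rfl
    rw [map_zero] at hb'1
    exact zero_ne_one hb'1
  have hx : b / b' ∈ K0 A := by
    rw [mem_K0_iff]
    intro τ hτ
    have hh : h τ ≠ 0 := by
      intro h0
      have h1 := hσ τ hτ
      rw [h0, zero_mul] at h1
      exact hb ((map_eq_zero_iff τ τ.injective).1 h1)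
    rw [map_div₀, hσ τ hτ, hb'σ τ hτ, mul_div_mul_left _ _ hh]
  obtain ⟨k, hk⟩ := valuation_of_mem_K0 A ℓ hℓ hA (b / b') hx (div_ne_zero hb hb'0)
  rw [map_div₀, hb'1, div_one] at hk
  have h1 : A.valuation (algebraMap ℚ Qb a) = A.valuation (ℓ : Qb) ^ (k * (r : ℤ)) := by
    rw [hab, map_pow, hk, zpow_mul, zpow_natCast]
  rw [padicValRat_eq_of_valuation A ℓ hℓ hA a ha _ h1]
  exact dvd_mul_left _ _

theorem valDvd_of_peuRam (A : ValuationSubring Qb) (ℓ : ℕ) (hℓ : ℓ.Prime)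
    (hA : A.LiesOverPrime ℓ) (r : ℕ) (hr : r ≠ 0) (h : GQ → Qb) (hp : PeuRam A h) : ValDvd r ℓ h := by
  intro b a ha hab hσ
  have hb : b ≠ 0 := by
    rintro rfl
    rw [zero_pow hr] at hab
    exact ha ((map_eq_zero_iff _ (algebraMap ℚ Qb).injective).1 hab)
  exact dvd_padicValRat_of_peuRam A ℓ hℓ hA r h hp b hb (fun σ _ => hσ σ) a ha hab

theorem valDvd_of_unrAt (A : ValuationSubring Qb) (ℓ : ℕ) (hℓ : ℓ.Prime)
    (hA : A.LiesOverPrime ℓ) (r : ℕ) (hr : r ≠ 0) (h : GQ → Qb) (hp : UnrAt A h) : ValDvd r ℓ h :=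
  valDvd_of_peuRam A ℓ hℓ hA r hr h (unrAt_peuRam A h hp)

end Fermat.Agent.S15.Q
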