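import Fermat.Agent.S15.Q.Defs
import Fermat.Agent.S13.MinkowskiMain

/-!
# S15/Q node Q1: a character of `G_ℚ` of finite level which is unramified everywhere is trivial

`J := {σ | h σ = 1}` is a normal subgroup (`h` is a homomorphism to the commutative monoid `ℚ̄`, `h 1 = 1` because
`h 1 = 1` by `FinLevel`; values are units since `h σ * h σ⁻¹ = h 1 = 1`), it contains `F.fixingSubgroup`;
`Fermat.Agent.S13.Minkowski.eq_top_of_inertia_le` (look up the exact namespace in `Fermat/Agent/S13/MinkowskiMain.lean`).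
-/

set_option autoImplicit false

namespace Fermat.Agent.S15.Q

open Fermat.Agent.Lib.InertiaField

theorem hom_eq_one (𝔄 : Places) (h : GQ → Qb) (hh : IsHom h) (hfin : FinLevel h)
    (hunr : ∀ ℓ : ℕ, ℓ.Prime → UnrAt (𝔄.pl ℓ) h) : ∀ σ, h σ = 1 := by
  obtain ⟨F, hF, hF1⟩ := hfin
  have h1 : h 1 = 1 := hF1 1 (fun x _ => rfl)
  let J : Subgroup GQ :=
    { carrier := {σ | h σ = 1}
      mul_mem' := fun {a b} ha hb => by
        show h (a * b) = 1
        rw [hh a b, ha, hb, one_mul]
      one_mem' := h1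
      inv_mem' := fun {a} ha => by
        show h a⁻¹ = 1
        have h2 := hh a a⁻¹
        rw [mul_inv_cancel, h1, ha, one_mul] at h2
        exact h2.symm }
  have hJn : J.Normal := ⟨fun n hn g => by
    show h (g * n * g⁻¹) = 1
    have hn' : h n = 1 := hn
    have h2 := hh g g⁻¹
    rw [mul_inv_cancel, h1] at h2
    rw [hh, hh, hn', mul_one, ← h2]⟩
  have htop : J = ⊤ := Fermat.Agent.S13.Minkowski.eq_top_of_inertia_le J F
    (fun σ hσ => hF1 σ (fun x hx => (IntermediateField.mem_fixingSubgroup_iff F σ).1 hσ x hx))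
    (fun q hq => ⟨𝔄.pl q, 𝔄.liesOver q hq, fun σ hσ => hunr q hq σ hσ⟩)
  intro σ
  have : σ ∈ J := htop ▸ Subgroup.mem_top σ
  exact this

end Fermat.Agent.S15.Q
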