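import Mathlib
import Fermat.Agent.Lib.InertiaField.Hensel
import Fermat.Agent.Lib.InertiaField.Unram
import Fermat.Agent.S36.Desc.Hilbert90

/-!
# S15, block Q, node Q2a: characters of order prime to `N` of the inertia group at `N` are powers of
the tame character `σ ↦ σ ν / ν`, `ν ^ r = N`

Kummer theory over the inertia field `K0 A` (Hilbert 90 of finite level + `K0 A` has uniformiser `N`
+ units of `K0 A` have all their `r`-th roots in `K0 A`).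
-/

set_option autoImplicit false

namespace Fermat.Agent.S15.Q

open Fermat.Agent.Lib.InertiaField

/-- (Q2a) tame inertia is "pro-cyclic": every `μ_r`-valued character of finite level of the inertia
subgroup at `N ∤ r` is a power of the Kummer character of `N ^ (1 / r)`. -/
theorem exists_zpow_tame {r N : ℕ} (hN : N.Prime) (hrN : ¬ N ∣ r)
    (A : ValuationSubring Qb) (hA : A.LiesOverPrime N) (ν : Qb) (hν : ν ^ r = (N : Qb))
    (h : GQ → Qb)
    (h_mul : ∀ σ ∈ A.inertiaSubgroupIn ℚ, ∀ τ ∈ A.inertiaSubgroupIn ℚ, h (σ * τ) = h σ * h τ)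
    (h_pow : ∀ σ ∈ A.inertiaSubgroupIn ℚ, h σ ^ r = 1)
    (L : IntermediateField ℚ Qb) [FiniteDimensional ℚ L]
    (h_one : ∀ σ ∈ A.inertiaSubgroupIn ℚ, (∀ x ∈ L, σ x = x) → h σ = 1) :
    ∃ m : ℤ, ∀ σ ∈ A.inertiaSubgroupIn ℚ, h σ = (σ ν / ν) ^ m := by
  have hr0 : r ≠ 0 := fun h0 => hrN (h0 ▸ dvd_zero N)
  have hN0 : (N : Qb) ≠ 0 := Nat.cast_ne_zero.2 hN.ne_zero
  have hν0 : ν ≠ 0 := by
    intro h0
    rw [h0, zero_pow hr0] at hν
    exact hN0 hν.symm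
  have hne : ∀ σ ∈ A.inertiaSubgroupIn ℚ, h σ ≠ 0 := by
    intro σ hσ h0
    have := h_pow σ hσ
    rw [h0, zero_pow hr0] at this
    exact zero_ne_one this
  have hfix : ∀ σ ∈ A.inertiaSubgroupIn ℚ, ∀ τ ∈ A.inertiaSubgroupIn ℚ, σ (h τ) = h τ := by
    intro σ hσ τ hτ
    exact (mem_K0_iff A _).1 (rootOfUnity_mem_K0 A N hN hA hrN (h_pow τ hτ)) σ hσ
  obtain ⟨b, hb0, hb⟩ := Fermat.Agent.S36.Desc.hilbert90_finite_level (K := ℚ) (Ω := Qb) (F := Qb)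
    (fun σ => σ.toRingEquiv) (fun σ c => rfl) (A.inertiaSubgroupIn ℚ) h hne
    (fun σ hσ τ hτ => by
      rw [h_mul σ hσ τ hτ]
      show h σ * h τ = σ (h τ) * h σ
      rw [hfix σ hσ τ hτ, mul_comm]) L h_one
  have hb' : ∀ σ ∈ A.inertiaSubgroupIn ℚ, σ b * h σ = b := hb
  have hbr : b ^ r ∈ K0 A := by
    rw [mem_K0_iff]
    intro σ hσ
    have h1 := hb' σ hσ
    have h2 : (σ b * h σ) ^ r = b ^ r := by rw [h1]
    rw [mul_pow, h_pow σ hσ, mul_one] at h2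
    rw [map_pow, h2]
  obtain ⟨k, u, hu0, huA, huA', hbu⟩ := exists_zpow_mul_unit A N hN hA hbr (pow_ne_zero r hb0)
  obtain ⟨w, hw⟩ := IsAlgClosed.exists_pow_nat_eq u (Nat.pos_of_ne_zero hr0)
  have hwK : w ∈ K0 A := mem_K0_of_pow_mem A N hN hA hrN hu0 huA huA' hw
  have hu_ne : u ≠ 0 := by
    intro h0
    rw [h0, mul_zero] at hbu
    exact pow_ne_zero r hb0 hbu
  have hw0 : w ≠ 0 := by
    intro h0
    rw [h0, zero_pow hr0] at hw
    exact hu_ne hw.symm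
  set ξ : Qb := b / (ν ^ k * w) with hξ
  have hden : ν ^ k * w ≠ 0 := mul_ne_zero (zpow_ne_zero k hν0) hw0
  have hξr : ξ ^ r = 1 := by
    rw [hξ, div_pow, mul_pow, hw, hbu, ← zpow_natCast (ν ^ k) r, ← zpow_mul, mul_comm k,
      zpow_mul, zpow_natCast, hν]
    exact div_self (mul_ne_zero (zpow_ne_zero k hN0) hu_ne)
  have hξK : ξ ∈ K0 A := rootOfUnity_mem_K0 A N hN hA hrN hξr
  have hbξ : b = ξ * (ν ^ k * w) := by
    rw [hξ, div_mul_cancel₀ _ hden]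
  refine ⟨-k, fun σ hσ => ?_⟩
  have hσb : σ b = ξ * ((σ ν) ^ k * w) := by
    conv_lhs => rw [hbξ]
    rw [map_mul, map_mul, map_zpow₀, (mem_K0_iff A _).1 hξK σ hσ, (mem_K0_iff A _).1 hwK σ hσ]
  have hσν0 : σ ν ≠ 0 := (map_ne_zero σ).2 hν0
  have hξ0 : ξ ≠ 0 := by
    intro h0
    rw [h0, zero_pow hr0] at hξr
    exact zero_ne_one hξr
  have hσb0 : σ b ≠ 0 := (map_ne_zero σ).2 hb0
  have h1 : h σ = b / σ b := by
    rw [eq_div_iff hσb0, mul_comm]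
    exact hb' σ hσ
  rw [h1, hσb]
  conv_lhs => rw [hbξ]
  rw [zpow_neg, div_zpow]
  field_simp

end Fermat.Agent.S15.Q
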