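import Fermat.Agent.S15.Q.Hilbert
import Fermat.Agent.S15.Q.Local
import Fermat.Agent.S15.Q.Hom
import Fermat.Agent.Lib.InertiaField.Hensel
import Fermat.Agent.S15.Q.Tame

/-!
# S15/Q node Q6: characters of order `r` of `G_ℚ` ramified only at `N ≠ r`

`A` the place above `N`, `ν ^ r = N`.  The values of `h` are `r`-th roots of unity, they lie in `K0 A`
(`rootOfUnity_mem_K0`, `N ∤ r`), so on the inertia group a homomorphism is a cocycle: `exists_kummer_inertia` gives `b`,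
`pow_mem_K0` gives `b ^ r ∈ K0 A`, so `b ^ r = N ^ k * u` with `u` a unit of `A` in `K0 A`
(`Fermat.Agent.Lib.InertiaField.exists_zpow_mul_unit`).  Choose `w` with `w ^ r = u` (`ℚ̄` is algebraically closed);
`w ∈ K0 A` by `mem_K0_of_pow_mem`.  `(b / (w * ν ^ k)) ^ r = 1`, so `b = (root of unity in K0 A) * w * ν ^ k` and
`τ b / b = (τ ν / ν) ^ k` for `τ` in the inertia group; reduce `k` modulo `r` (`(τ ν / ν) ^ r = 1`).
`hom_eq_of_inertia`: two such characters with the same `k`: the quotient `h σ * (h' σ)⁻¹` is unramified everywhere, `hom_eq_one`.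
-/

set_option autoImplicit false

namespace Fermat.Agent.S15.Q

open Fermat.Agent.Lib.InertiaField

theorem exists_pow_on_inertia (r N : ℕ) (hr : r.Prime) (hN : N.Prime) (hrN : r ≠ N)
    (A : ValuationSubring Qb) (hA : A.LiesOverPrime N) (ν : Qb) (hν : ν ^ r = (N : Qb))
    (h : GQ → Qb) (hpow : ∀ σ, h σ ^ r = 1) (hh : IsHom h) (hfin : FinLevel h) :
    ∃ k : ℕ, k < r ∧ ∀ τ ∈ A.inertiaSubgroupIn ℚ, h τ * ν ^ k = τ (ν ^ k) := by
  obtain ⟨F, hF, hF1⟩ := hfin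
  have hNr : ¬ N ∣ r := fun hd => hrN ((Nat.prime_dvd_prime_iff_eq hN hr).1 hd).symm
  obtain ⟨m, hm⟩ := exists_zpow_tame hN hNr A hA ν hν h (fun σ _ τ _ => hh σ τ)
    (fun σ _ => hpow σ) F (fun σ _ hσ => hF1 σ hσ)
  have hr0 : (r : ℤ) ≠ 0 := Int.natCast_ne_zero.2 hr.ne_zero
  have hN0 : (N : Qb) ≠ 0 := Nat.cast_ne_zero.2 hN.ne_zero
  have hν0 : ν ≠ 0 := by
    intro h0
    rw [h0, zero_pow hr.ne_zero] at hν
    exact hN0 hν.symm
  refine ⟨(m % r).toNat, ?_, fun τ hτ => ?_⟩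
  · have h1 : m % r < r := Int.emod_lt_of_pos m (Int.natCast_pos.2 hr.pos)
    have h2 : 0 ≤ m % r := Int.emod_nonneg m hr0
    omega
  · have h2 : 0 ≤ m % r := Int.emod_nonneg m hr0
    have ht : (τ ν / ν) ^ r = 1 := by
      rw [div_pow, ← map_pow, hν, map_natCast, div_self hN0]
    have h3 : (τ ν / ν) ^ m = (τ ν / ν) ^ (m % r).toNat := by
      conv_lhs => rw [← Int.mul_ediv_add_emod m r]
      have hτν : τ ν / ν ≠ 0 := div_ne_zero ((map_ne_zero τ).2 hν0) hν0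
      rw [zpow_add₀ hτν, zpow_mul, zpow_natCast, ht, one_zpow, one_mul, ← zpow_natCast,
        Int.toNat_of_nonneg h2]
    rw [hm τ hτ, h3, div_pow, map_pow, div_mul_cancel₀ _ (pow_ne_zero _ hν0)]

theorem hom_eq_of_inertia (N : ℕ) (𝔄 : Places) (h h' : GQ → Qb) (hh : IsHom h) (hh' : IsHom h')
    (hfin : FinLevel h) (hfin' : FinLevel h')
    (hunr : ∀ ℓ : ℕ, ℓ.Prime → ℓ ≠ N → UnrAt (𝔄.pl ℓ) h)
    (hunr' : ∀ ℓ : ℕ, ℓ.Prime → ℓ ≠ N → UnrAt (𝔄.pl ℓ) h')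
    (hN : ∀ τ ∈ (𝔄.pl N).inertiaSubgroupIn ℚ, h τ = h' τ) : h = h' := by
  obtain ⟨F, hF, hF1⟩ := hfin
  obtain ⟨F', hF', hF1'⟩ := hfin'
  have h1' : h' 1 = 1 := hF1' 1 (fun x _ => rfl)
  have hne' : ∀ σ, h' σ ≠ 0 := by
    intro σ h0
    have h2 := hh' σ σ⁻¹
    rw [mul_inv_cancel, h1', h0, zero_mul] at h2
    exact one_ne_zero h2
  have key := hom_eq_one 𝔄 (fun σ => h σ * (h' σ)⁻¹)
    (fun σ τ => by
      show h (σ * τ) * (h' (σ * τ))⁻¹ = h σ * (h' σ)⁻¹ * (h τ * (h' τ)⁻¹)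
      rw [hh, hh', mul_inv]
      ring)
    ⟨F ⊔ F', IntermediateField.finiteDimensional_sup F F', fun σ hσ => by
      show h σ * (h' σ)⁻¹ = 1
      rw [hF1 σ (fun x hx => hσ x ((le_sup_left : F ≤ F ⊔ F') hx)),
        hF1' σ (fun x hx => hσ x ((le_sup_right : F' ≤ F ⊔ F') hx)), inv_one, one_mul]⟩
    (fun ℓ hℓ τ hτ => by
      show h τ * (h' τ)⁻¹ = 1
      by_cases hℓN : ℓ = N
      · subst hℓN
        rw [hN τ hτ, mul_inv_cancel₀ (hne' τ)]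
      · rw [hunr ℓ hℓ hℓN τ hτ, hunr' ℓ hℓ hℓN τ hτ, inv_one, one_mul])
  funext σ
  have h2 : h σ * (h' σ)⁻¹ = 1 := key σ
  rw [mul_inv_eq_one₀ (hne' σ)] at h2
  exact h2

end Fermat.Agent.S15.Q
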