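import Fermat.Agent.S15.Q.Kummer
import Fermat.Agent.S15.Q.Local
import Fermat.Agent.S15.Q.TameN

/-!
# S15/Q node Q8: the counts  `#Z(piece) ≤ r ^ ([0-type] + [t-type])`

The sets of functions `h : G_ℚ → ℚ̄` below are finite with the indicated bounds: each `h` is determined by `(j, k)` resp. `k`
resp. `j` (`Set.Finite.subset` of the range of an explicit map from `Fin r × Fin r` / `Fin r`, `Set.ncard_le_ncard`,
`Set.ncard_image_le`, `Set.ncard_univ`/`Nat.card_eq_fintype_card`).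
In `ncard_ZCoc*`: `h σ = σ β / β` with `β = ξ ^ j * ν ^ k ≠ 0` (`exists_kummer_form`, `exists_kummer_form_unr`; `valDvd_of_unrAt` at `ℓ ≠ r`).
In `ncard_ZHomT`: `exists_pow_on_inertia` + `hom_eq_of_inertia`.
Auxiliary elements `ξ`, `ν` exist because `ℚ̄` is algebraically closed of characteristic zero
(`IsAlgClosed.exists_pow_nat_eq`, `HasEnoughRootsOfUnity`/`IsAlgClosed` gives primitive roots: `exists_primitiveRoot`-type lemma,
e.g. `Fermat/Agent/S14/G/Main.lean`).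
-/

set_option autoImplicit false

namespace Fermat.Agent.S15.Q

open Fermat.Agent.Lib.InertiaField

/-- (et,q) -/
def ZHomQ (𝔄 : Places) : Set (GQ → Qb) :=
  {h | IsHom h ∧ FinLevel h ∧ ∀ ℓ : ℕ, ℓ.Prime → UnrAt (𝔄.pl ℓ) h}

/-- (et,t) -/
def ZHomT (r N : ℕ) (𝔄 : Places) : Set (GQ → Qb) :=
  {h | (∀ σ, h σ ^ r = 1) ∧ IsHom h ∧ FinLevel h ∧ ∀ ℓ : ℕ, ℓ.Prime → ℓ ≠ N → UnrAt (𝔄.pl ℓ) h}

/-- (0,q) -/
def ZCocQ (r : ℕ) (𝔄 : Places) : Set (GQ → Qb) :=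
  {h | (∀ σ, h σ ^ r = 1) ∧ IsCoc h ∧ FinLevel h ∧ (∀ ℓ : ℕ, ℓ.Prime → ℓ ≠ r → UnrAt (𝔄.pl ℓ) h) ∧
    ValDvd r r h}

/-- (0,t) -/
def ZCocT (r N : ℕ) (𝔄 : Places) : Set (GQ → Qb) :=
  {h | (∀ σ, h σ ^ r = 1) ∧ IsCoc h ∧ FinLevel h ∧
    (∀ ℓ : ℕ, ℓ.Prime → ℓ ≠ r → ℓ ≠ N → UnrAt (𝔄.pl ℓ) h) ∧ ValDvd r r h}

/-- counting principle: a set whose elements are determined by a label in a finite type -/
private theorem count_of_label {α ι : Type*} [Fintype ι] (S : Set α) (P : α → ι → Prop)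
    (hex : ∀ a ∈ S, ∃ i, P a i) (huniq : ∀ a ∈ S, ∀ b ∈ S, ∀ i, P a i → P b i → a = b) :
    S.Finite ∧ S.ncard ≤ Fintype.card ι := by
  classical
  let f : S → ι := fun a => (hex a.1 a.2).choose
  have hf : ∀ a : S, P a.1 (f a) := fun a => (hex a.1 a.2).choose_spec
  have hinj : Function.Injective f := by
    intro a b hab
    apply Subtype.ext
    refine huniq a.1 a.2 b.1 b.2 (f a) (hf a) ?_
    rw [hab]
    exact hf b
  have hfin : Finite S := Finite.of_injective f hinj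
  refine ⟨Set.toFinite S, ?_⟩
  rw [← _root_.Nat.card_coe_set_eq, ← Nat.card_eq_fintype_card]
  exact Nat.card_le_card_of_injective f hinj

private theorem exists_xi (r : ℕ) (hr : r.Prime) : ∃ ξ : Qb, IsPrimitiveRoot ξ (xiOrder r) := by
  have h0 : xiOrder r ≠ 0 := by
    unfold xiOrder
    split_ifs
    · norm_num
    · exact hr.ne_zero
  have : NeZero (xiOrder r) := ⟨h0⟩
  exact HasEnoughRootsOfUnity.exists_primitiveRoot Qb (xiOrder r)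

private theorem exists_nu (r N : ℕ) (hr : r.Prime) : ∃ ν : Qb, ν ^ r = (N : Qb) :=
  IsAlgClosed.exists_pow_nat_eq (N : Qb) hr.pos

private theorem nu_ne_zero {r N : ℕ} (hr : r.Prime) (hN : N.Prime) {ν : Qb} (hν : ν ^ r = (N : Qb)) :
    ν ≠ 0 := by
  intro h0
  rw [h0, zero_pow hr.ne_zero] at hν
  exact (Nat.cast_ne_zero.2 hN.ne_zero : (N : Qb) ≠ 0) hν.symm

theorem ZHomQ_subset (𝔄 : Places) : ZHomQ 𝔄 ⊆ {fun _ => 1} := by
  rintro h ⟨hh, hfin, hunr⟩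
  rw [Set.mem_singleton_iff]
  funext σ
  exact hom_eq_one 𝔄 h hh hfin hunr σ

theorem ncard_ZHomT (r N : ℕ) (hr : r.Prime) (hN : N.Prime) (hrN : r ≠ N) (𝔄 : Places) :
    (ZHomT r N 𝔄).Finite ∧ (ZHomT r N 𝔄).ncard ≤ r := by
  obtain ⟨ν, hν⟩ := exists_nu r N hr
  have hν0 : ν ≠ 0 := nu_ne_zero hr hN hν
  have key := count_of_label (ι := Fin r) (ZHomT r N 𝔄)
    (fun h k => ∀ τ ∈ (𝔄.pl N).inertiaSubgroupIn ℚ, h τ * ν ^ (k : ℕ) = τ (ν ^ (k : ℕ)))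
    (by
      rintro h ⟨hpow, hh, hfin, -⟩
      obtain ⟨k, hk, hkτ⟩ := exists_pow_on_inertia r N hr hN hrN (𝔄.pl N) (𝔄.liesOver N hN) ν hν
        h hpow hh hfin
      exact ⟨⟨k, hk⟩, hkτ⟩)
    (by
      rintro h ⟨-, hh, hfin, hunr⟩ h' ⟨-, hh', hfin', hunr'⟩ k hk hk'
      refine hom_eq_of_inertia N 𝔄 h h' hh hh' hfin hfin' hunr hunr' fun τ hτ => ?_
      have h1 := hk τ hτ
      have h2 := hk' τ hτ
      exact mul_right_cancel₀ (pow_ne_zero _ hν0) (h1.trans h2.symm))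
  rwa [Fintype.card_fin] at key

theorem ncard_ZCocQ (r : ℕ) (hr : r.Prime) (𝔄 : Places) :
    (ZCocQ r 𝔄).Finite ∧ (ZCocQ r 𝔄).ncard ≤ r := by
  obtain ⟨ξ, hξ⟩ := exists_xi r hr
  have hξ0 : ξ ≠ 0 := by
    have h0 : xiOrder r ≠ 0 := by
      unfold xiOrder
      split_ifs
      · norm_num
      · exact hr.ne_zero
    exact hξ.ne_zero h0
  have key := count_of_label (ι := Fin r) (ZCocQ r 𝔄)
    (fun h j => ∀ σ : GQ, σ (ξ ^ (j : ℕ)) = h σ * ξ ^ (j : ℕ))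
    (by
      rintro h ⟨hpow, hcoc, hfin, hunr, hval⟩
      obtain ⟨j, hj, hjσ⟩ := exists_kummer_form_unr r hr ξ hξ h hpow hcoc hfin (fun ℓ hℓ => by
        by_cases hℓr : ℓ = r
        · rw [hℓr]; exact hval
        · exact valDvd_of_unrAt (𝔄.pl ℓ) ℓ hℓ (𝔄.liesOver ℓ hℓ) r hr.ne_zero h (hunr ℓ hℓ hℓr))
      exact ⟨⟨j, hj⟩, hjσ⟩)
    (by
      rintro h - h' - j hj hj'
      funext σ
      exact mul_right_cancel₀ (pow_ne_zero _ hξ0) ((hj σ).symm.trans (hj' σ)))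
  rwa [Fintype.card_fin] at key

theorem ncard_ZCocT (r N : ℕ) (hr : r.Prime) (hN : N.Prime) (𝔄 : Places) :
    (ZCocT r N 𝔄).Finite ∧ (ZCocT r N 𝔄).ncard ≤ r ^ 2 := by
  obtain ⟨ξ, hξ⟩ := exists_xi r hr
  obtain ⟨ν, hν⟩ := exists_nu r N hr
  have hν0 : ν ≠ 0 := nu_ne_zero hr hN hν
  have hξ0 : ξ ≠ 0 := by
    have h0 : xiOrder r ≠ 0 := by
      unfold xiOrder
      split_ifs
      · norm_num
      · exact hr.ne_zero
    exact hξ.ne_zero h0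
  have key := count_of_label (ι := Fin r × Fin r) (ZCocT r N 𝔄)
    (fun h jk => ∀ σ : GQ, σ (ξ ^ (jk.1 : ℕ) * ν ^ (jk.2 : ℕ)) =
      h σ * (ξ ^ (jk.1 : ℕ) * ν ^ (jk.2 : ℕ)))
    (by
      rintro h ⟨hpow, hcoc, hfin, hunr, hval⟩
      obtain ⟨j, k, hj, hk, hjk⟩ := exists_kummer_form r N hr hN ξ ν hξ hν h hpow hcoc hfin
        (fun ℓ hℓ hℓN => by
          by_cases hℓr : ℓ = r
          · rw [hℓr]; exact hval
          · exact valDvd_of_unrAt (𝔄.pl ℓ) ℓ hℓ (𝔄.liesOver ℓ hℓ) r hr.ne_zero h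
              (hunr ℓ hℓ hℓr hℓN))
      exact ⟨(⟨j, hj⟩, ⟨k, hk⟩), hjk⟩)
    (by
      rintro h - h' - jk hj hj'
      funext σ
      exact mul_right_cancel₀ (mul_ne_zero (pow_ne_zero _ hξ0) (pow_ne_zero _ hν0))
        ((hj σ).symm.trans (hj' σ)))
  rwa [Fintype.card_prod, Fintype.card_fin, ← sq] at key

end Fermat.Agent.S15.Q
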