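import Fermat.Agent.S15.Q.Local

/-!
# S15/Q node Q7: for `r` odd the inertia group at `r` moves the `r`-th roots of unity

If `ζ` (primitive `r`-th root of unity) is fixed by the inertia group of `A` (over `r`) then `1 - ζ ∈ K0 A`, so
`v(1 - ζ) = v(r) ^ k` (`valuation_of_mem_K0`).  But `∏_{0<i<r} (1 - ζ ^ i) = r` (`Polynomial.eval_one_cyclotomic_prime` +
`Polynomial.cyclotomic_eq_prod_X_sub_primitiveRoots` / `IsPrimitiveRoot` API, or `IsPrimitiveRoot.sub_one_norm_prime`-free: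
`X^r - 1 = ∏ (X - ζ^i)`, divide by `X - 1`, evaluate at `1`) and `v(1 - ζ ^ i) = v(1 - ζ)` for `0 < i < r`
(each divides the other in `ℤ[ζ] ⊆ A`: `1 - ζ^i = (1 - ζ)(1 + ... + ζ^(i-1))` and `ζ = (ζ^i)^j`).  So `v(r) = v(r) ^ (k (r - 1))`,
`v(r) < 1`, hence `k (r - 1) = 1` and `r = 2`.
(Proofs: helper205.)
-/

set_option autoImplicit false

namespace Fermat.Agent.S15.Q

open Fermat.Agent.Lib.InertiaField

theorem Cyclo.valuation_zeta (A : ValuationSubring Qb) {r : ℕ} (hr : r.Prime) {ζ : Qb}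
    (hζ : IsPrimitiveRoot ζ r) : A.valuation ζ = 1 := by
  have h : A.valuation ζ ^ r = 1 := by rw [← map_pow, hζ.pow_eq_one, map_one]
  exact (pow_eq_one_iff.1 h).resolve_right hr.ne_zero

theorem Cyclo.valuation_one_sub_pow_le (A : ValuationSubring Qb) {x : Qb} (hx : x ∈ A) (k : ℕ) :
    A.valuation (1 - x ^ k) ≤ A.valuation (1 - x) := by
  rw [← geom_sum_mul_neg, map_mul]
  have : A.valuation (∑ i ∈ Finset.range k, x ^ i) ≤ 1 :=
    (A.valuation_le_one_iff _).2 (sum_mem fun i _ => pow_mem hx i)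
  exact mul_le_of_le_one_left' this

theorem Cyclo.valuation_one_sub_zeta_pow (A : ValuationSubring Qb) {r : ℕ} (hr : r.Prime) {ζ : Qb}
    (hζ : IsPrimitiveRoot ζ r) (k : ℕ) (hk : ¬ r ∣ k) :
    A.valuation (1 - ζ ^ k) = A.valuation (1 - ζ) := by
  have hζA : ζ ∈ A := (A.valuation_le_one_iff _).1 (Cyclo.valuation_zeta A hr hζ).le
  apply le_antisymm (Cyclo.valuation_one_sub_pow_le A hζA k)
  have hcop : Nat.Coprime k r := ((Nat.Prime.coprime_iff_not_dvd hr).2 hk).symm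
  obtain ⟨k', _, hk'⟩ := Nat.exists_mul_mod_eq_one_of_coprime hcop hr.one_lt
  have h1 : (ζ ^ k) ^ k' = ζ := by
    rw [← pow_mul, ← Nat.mod_add_div (k * k') r, hk', pow_add, pow_mul, hζ.pow_eq_one, one_pow,
      mul_one, pow_one]
  calc A.valuation (1 - ζ) = A.valuation (1 - (ζ ^ k) ^ k') := by rw [h1]
    _ ≤ _ := Cyclo.valuation_one_sub_pow_le A (pow_mem hζA k) k'

theorem valuation_one_sub_pow (A : ValuationSubring Qb) (r : ℕ) (hr : r.Prime) (ζ : Qb)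
    (hζ : IsPrimitiveRoot ζ r) : A.valuation (1 - ζ) ^ (r - 1) = A.valuation (r : Qb) := by
  have : Fact r.Prime := ⟨hr⟩
  have : NeZero r := ⟨hr.ne_zero⟩
  have h1 : (r : Qb) = ∏ μ ∈ primitiveRoots r Qb, (1 - μ) := by
    have h2 := congrArg (Polynomial.eval 1) (Polynomial.cyclotomic_eq_prod_X_sub_primitiveRoots hζ)
    rw [Polynomial.eval_one_cyclotomic_prime, Polynomial.eval_prod] at h2
    simpa using h2
  rw [h1, map_prod]
  have h3 : ∀ μ ∈ primitiveRoots r Qb, A.valuation (1 - μ) = A.valuation (1 - ζ) := by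
    intro μ hμ
    rw [mem_primitiveRoots hr.pos, hζ.isPrimitiveRoot_iff] at hμ
    obtain ⟨i, _, hi, rfl⟩ := hμ
    exact Cyclo.valuation_one_sub_zeta_pow A hr hζ i
      ((Nat.Prime.coprime_iff_not_dvd hr).1 hi.symm)
  rw [Finset.prod_congr rfl h3, Finset.prod_const, hζ.card_primitiveRoots, Nat.totient_prime hr]

theorem exists_inertia_moving (A : ValuationSubring Qb) (r : ℕ) (hr : r.Prime) (hr2 : r ≠ 2)
    (hA : A.LiesOverPrime r) (ζ : Qb) (hζ : IsPrimitiveRoot ζ r) :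
    ∃ τ ∈ A.inertiaSubgroupIn ℚ, τ ζ ≠ ζ := by
  by_contra hcon
  push Not at hcon
  have hK : 1 - ζ ∈ K0 A := by
    rw [mem_K0_iff]
    intro τ hτ
    rw [map_sub, map_one, hcon τ hτ]
  have h0 : 1 - ζ ≠ 0 := sub_ne_zero.2 (hζ.ne_one hr.one_lt).symm
  obtain ⟨k, hk⟩ := valuation_of_mem_K0 A r hr hA (1 - ζ) hK h0
  have h1 := valuation_one_sub_pow A r hr ζ hζ
  have hv1 : A.valuation (r : Qb) < 1 := (A.mem_nonunits_iff).1 hA
  have hv0 : 0 < A.valuation (r : Qb) :=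
    zero_lt_iff.2 ((map_ne_zero _).2 (Nat.cast_ne_zero.2 hr.ne_zero))
  rw [hk, ← zpow_natCast, ← zpow_mul] at h1
  have h2 : k * ((r - 1 : ℕ) : ℤ) = 1 := by
    apply zpow_right_injective₀ hv0 hv1.ne
    simpa using h1
  have h3 : ((r - 1 : ℕ) : ℤ) ∣ 1 := Dvd.intro_left _ h2
  have h4 : r - 1 ∣ 1 := by exact_mod_cast h3
  have h5 : r - 1 = 1 := Nat.dvd_one.1 h4
  have := hr.two_le
  omega

end Fermat.Agent.S15.Q
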