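import Fermat.Agent.S15.Q.Kummer
import Fermat.Agent.S15.Q.Local

/-!
# S15/Q node Q9: `r = 2`, the real place instead of the condition "unramified at 2"

`c∞ : G_ℚ` is a complex conjugation; only two properties are used: it moves the square roots of `-1` and it fixes the square roots of `N`.
`h` has values `±1`, so `IsHom h ↔ IsCoc h` (`isCoc_of_isHom_two`: `h τ ^ 2 = 1` gives `h τ = 1 ∨ h τ = -1`, fixed by every `σ`).
* `ZRealQ_subset`: `exists_kummer_form_unr` (`r = 2`, `ξ` of order `xiOrder 2 = 4`, `valDvd_of_unrAt` at odd `ℓ`): `σ (ξ ^ j) = h σ * ξ ^ j`, `j < 2`;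
  if `j = 1` then `c∞ ξ = ξ` with `ξ ^ 2 = -1`: contradiction.  So `j = 0` and `h = 1`.
* `ncard_ZRealT`: `exists_kummer_form`: `β = ξ ^ j * ν ^ k`, `c∞ β = β`, `c∞ ν = ν`, `ν ≠ 0`, so `(c∞ ξ) ^ j = ξ ^ j` and `j = 0`; `h σ = σ (ν ^ k) / ν ^ k`, `k < 2`.
-/

set_option autoImplicit false

namespace Fermat.Agent.S15.Q

open Fermat.Agent.Lib.InertiaField

theorem real_aux_fixed (h : GQ → Qb) (hpow : ∀ σ, h σ ^ 2 = 1) (σ τ : GQ) : σ (h τ) = h τ := by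
  have h1 : h τ * h τ = 1 := by rw [← sq]; exact hpow τ
  rcases mul_self_eq_one_iff.1 h1 with h2 | h2
  · rw [h2, map_one]
  · rw [h2, map_neg, map_one]

theorem isCoc_of_isHom_two (h : GQ → Qb) (hpow : ∀ σ, h σ ^ 2 = 1) (hh : IsHom h) : IsCoc h := by
  intro σ τ
  rw [real_aux_fixed h hpow, hh]

theorem isHom_of_isCoc_two (h : GQ → Qb) (hpow : ∀ σ, h σ ^ 2 = 1) (hh : IsCoc h) : IsHom h := by
  intro σ τ
  rw [hh, real_aux_fixed h hpow]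

/-- a primitive fourth root of unity -/
theorem real_aux_exists_xi : ∃ ξ : Qb, IsPrimitiveRoot ξ (xiOrder 2) ∧ ξ ^ 2 = -1 := by
  obtain ⟨ξ, hξ⟩ := IsAlgClosed.exists_pow_nat_eq (-1 : Qb) (n := 2) (by norm_num)
  have h11 : (1 : Qb) ≠ -1 := by norm_num
  refine ⟨ξ, ?_, hξ⟩
  have h4 : xiOrder 2 = 4 := by simp [xiOrder]
  rw [h4]
  refine IsPrimitiveRoot.mk_of_lt ξ (by norm_num) ?_ ?_
  · have : ξ ^ 4 = (ξ ^ 2) ^ 2 := by ring
    rw [this, hξ]; ring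
  · intro l hl0 hl4 hl
    interval_cases l
    · rw [pow_one] at hl
      rw [hl, one_pow] at hξ
      exact h11 hξ
    · rw [hξ] at hl
      exact h11 hl.symm
    · have h3 : ξ ^ 3 = ξ ^ 2 * ξ := by ring
      rw [h3, hξ] at hl
      have h5 : ξ = -1 := by linear_combination -hl
      rw [h5] at hξ
      apply h11
      rw [← hξ]; ring

/-- (non-real,q) -/
def ZRealQ (𝔄 : Places) (cinf : GQ) : Set (GQ → Qb) :=
  {h | (∀ σ, h σ ^ 2 = 1) ∧ IsHom h ∧ FinLevel h ∧ (∀ ℓ : ℕ, ℓ.Prime → ℓ ≠ 2 → UnrAt (𝔄.pl ℓ) h) ∧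
    ValDvd 2 2 h ∧ h cinf = 1}

/-- (non-real,t) -/
def ZRealT (N : ℕ) (𝔄 : Places) (cinf : GQ) : Set (GQ → Qb) :=
  {h | (∀ σ, h σ ^ 2 = 1) ∧ IsHom h ∧ FinLevel h ∧
    (∀ ℓ : ℕ, ℓ.Prime → ℓ ≠ 2 → ℓ ≠ N → UnrAt (𝔄.pl ℓ) h) ∧ ValDvd 2 2 h ∧ h cinf = 1}

theorem ZRealQ_subset (𝔄 : Places) (cinf : GQ) (hc : ∀ x : Qb, x ^ 2 = -1 → cinf x ≠ x) :
    ZRealQ 𝔄 cinf ⊆ {fun _ => 1} := by
  rintro h ⟨hpow, hhom, hfin, hunr, hv2, hcinf⟩
  obtain ⟨ξ, hξ, hξ2⟩ := real_aux_exists_xi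
  obtain ⟨j, hj, hσ⟩ := exists_kummer_form_unr 2 Nat.prime_two ξ hξ h hpow
    (isCoc_of_isHom_two h hpow hhom) hfin (by
      intro ℓ hℓ
      by_cases h2 : ℓ = 2
      · rw [h2]; exact hv2
      · exact valDvd_of_unrAt (𝔄.pl ℓ) ℓ hℓ (𝔄.liesOver ℓ hℓ) 2 two_ne_zero h (hunr ℓ hℓ h2))
  rw [Set.mem_singleton_iff]
  interval_cases j
  · funext σ
    have := hσ σ
    rw [pow_zero, map_one, mul_one] at this
    exact this.symm
  · exfalso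
    have := hσ cinf
    rw [pow_one, hcinf, one_mul] at this
    exact hc ξ hξ2 this

theorem ncard_ZRealT (N : ℕ) (hN : N.Prime) (𝔄 : Places) (cinf : GQ)
    (hc : ∀ x : Qb, x ^ 2 = -1 → cinf x ≠ x) (hcN : ∀ x : Qb, x ^ 2 = (N : Qb) → cinf x = x) :
    (ZRealT N 𝔄 cinf).Finite ∧ (ZRealT N 𝔄 cinf).ncard ≤ 2 := by
  obtain ⟨ξ, hξ, hξ2⟩ := real_aux_exists_xi
  obtain ⟨ν, hν⟩ := IsAlgClosed.exists_pow_nat_eq (N : Qb) (n := 2) (by norm_num)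
  have hν0 : ν ≠ 0 := by
    intro h0
    rw [h0, zero_pow two_ne_zero] at hν
    exact (Nat.cast_ne_zero.2 hN.ne_zero) hν.symm
  have hsub : ZRealT N 𝔄 cinf ⊆
      {(fun σ : GQ => σ (ν ^ 0) / ν ^ 0), (fun σ : GQ => σ (ν ^ 1) / ν ^ 1)} := by
    rintro h ⟨hpow, hhom, hfin, hunr, hv2, hcinf⟩
    obtain ⟨j, k, hj, hk, hσ⟩ := exists_kummer_form 2 N Nat.prime_two hN ξ ν hξ hν h hpow
      (isCoc_of_isHom_two h hpow hhom) hfin (by
        intro ℓ hℓ hℓN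
        by_cases h2 : ℓ = 2
        · rw [h2]; exact hv2
        · exact valDvd_of_unrAt (𝔄.pl ℓ) ℓ hℓ (𝔄.liesOver ℓ hℓ) 2 two_ne_zero h (hunr ℓ hℓ h2 hℓN))
    have hνk : ν ^ k ≠ 0 := pow_ne_zero _ hν0
    have hj0 : j = 0 := by
      interval_cases j
      · rfl
      · exfalso
        have h1 := hσ cinf
        rw [pow_one, hcinf, one_mul, map_mul, map_pow, hcN ν hν] at h1
        exact hc ξ hξ2 (mul_right_cancel₀ hνk h1)
    subst hj0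
    have hform : h = fun σ : GQ => σ (ν ^ k) / ν ^ k := by
      funext σ
      have h1 := hσ σ
      rw [pow_zero, one_mul] at h1
      rw [h1, mul_div_assoc, div_self hνk, mul_one]
    rw [hform]
    interval_cases k
    · exact Set.mem_insert _ _
    · exact Set.mem_insert_of_mem _ (Set.mem_singleton _)
  have hfin2 : ({(fun σ : GQ => σ (ν ^ 0) / ν ^ 0), (fun σ : GQ => σ (ν ^ 1) / ν ^ 1)} :
      Set (GQ → Qb)).Finite := Set.toFinite _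
  refine ⟨hfin2.subset hsub, (Set.ncard_le_ncard hsub hfin2).trans ?_⟩
  refine (Set.ncard_insert_le _ _).trans ?_
  rw [Set.ncard_singleton]

end Fermat.Agent.S15.Q
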