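import Mathlib
import Fermat.Agent.Lib.InertiaField.Defs

/-!
# S15, block Q (global computations over `ℚ`, architect helper67): definitions

Everything is written MULTIPLICATIVELY for functions `h : G_ℚ → ℚ̄` with values in the `r`-th roots of
unity: a piece of order `r` of the Galois module is embedded in `ℚ̄ˣ` (equivariantly if the piece is
`μ_r`, arbitrarily if the action is trivial).

* `FinLevel h`  : `h = 1` on an open subgroup;
* `UnrAt A h`   : `h = 1` on the inertia group of `A`;
* `IsHom h`     : `h (σ τ) = h σ * h τ`                      (pieces with trivial action);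
* `IsCoc h`     : `h (σ τ) = h σ * σ (h τ)`                  (pieces `μ_r`);
* `PeuRam A h`  : on the inertia group of `A`, `h` is the Kummer cocycle `τ ↦ τ b / b` of a UNIT `b`;
* `ValDvd r ℓ h`: every global Kummer generator `b` of `h` (`σ b = h σ * b`, `b ^ r = a ∈ ℚˣ`) has `r ∣ v_ℓ(a)`.
  This is THE form in which the local conditions enter the count for the pieces `μ_r`
  (`UnrAt → PeuRam → ValDvd`, see `Q/Local.lean`).
-/

set_option autoImplicit false

namespace Fermat.Agent.S15.Q

open Fermat.Agent.Lib.InertiaField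

/-- `h = 1` on an open subgroup -/
def FinLevel (h : GQ → Qb) : Prop :=
  ∃ F : IntermediateField ℚ Qb, FiniteDimensional ℚ F ∧ ∀ σ : GQ, (∀ x ∈ F, σ x = x) → h σ = 1

/-- `h = 1` on the inertia group of `A` -/
def UnrAt (A : ValuationSubring Qb) (h : GQ → Qb) : Prop :=
  ∀ τ ∈ A.inertiaSubgroupIn ℚ, h τ = 1

/-- homomorphisms -/
def IsHom (h : GQ → Qb) : Prop := ∀ σ τ : GQ, h (σ * τ) = h σ * h τ

/-- 1-cocycles with values in `ℚ̄ˣ` -/
def IsCoc (h : GQ → Qb) : Prop := ∀ σ τ : GQ, h (σ * τ) = h σ * σ (h τ)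

/-- on the inertia group of `A` the function `h` is the Kummer cocycle of a unit of `A` -/
def PeuRam (A : ValuationSubring Qb) (h : GQ → Qb) : Prop :=
  ∃ b : Qb, A.valuation b = 1 ∧ ∀ τ ∈ A.inertiaSubgroupIn ℚ, τ b = h τ * b

/-- every global Kummer generator of `h` has `ℓ`-adic valuation divisible by `r` -/
def ValDvd (r ℓ : ℕ) (h : GQ → Qb) : Prop :=
  ∀ (b : Qb) (a : ℚ), a ≠ 0 → algebraMap ℚ Qb a = b ^ r → (∀ σ : GQ, σ b = h σ * b) →
    (r : ℤ) ∣ padicValRat ℓ a

/-- a choice of one place of `ℚ̄` above every prime -/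
structure Places where
  /-- the place above `ℓ` -/
  pl : ℕ → ValuationSubring Qb
  liesOver : ∀ ℓ : ℕ, ℓ.Prime → (pl ℓ).LiesOverPrime ℓ

/-- the order of the auxiliary root of unity `ξ`: `ξ ^ r ∈ {1, -1}` generates `{±1}` modulo `r`-th powers -/
def xiOrder (r : ℕ) : ℕ := if r = 2 then 4 else r

end Fermat.Agent.S15.Q
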