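import Fermat.Agent.S15.Q.Defs
import Fermat.Agent.S36.Desc.Hilbert90
import Fermat.Agent.Lib.InertiaField.Closed

/-!
# S15/Q node Q2: Hilbert 90 for cocycles of finite level, globally and on an inertia group

`Fermat.Agent.S36.Desc.hilbert90_finite_level` with `K = ℚ`, `Ω = F = ℚ̄`, `act σ = σ.toRingEquiv`
gives `b ≠ 0` with `σ b * h σ = b`; replace `b` by `b⁻¹`.
* `exists_kummer_global`: `H = ⊤`.
* `exists_kummer_inertia`: `H =` inertia group of `A`; the hypothesis is only the cocycle relation on `H`.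
* `pow_mem_rat`: `b ^ r` is fixed by `G_ℚ`, hence rational (`IsGalois ℚ ℚ̄`:
  `Fermat.Agent.Lib.Frobenius.isGalois_rat`, `IsGalois.mem_bot_iff_fixed` or `InfiniteGalois.fixedField_bot`-type lemmas;
  compare `Fermat/Agent/S17/W/SqrtGen.lean`).
* `pow_mem_K0`: the same on inertia (`mem_K0_iff`).
-/

set_option autoImplicit false

namespace Fermat.Agent.S15.Q

open Fermat.Agent.Lib.InertiaField

theorem exists_kummer_global (h : GQ → Qb) (hne : ∀ σ, h σ ≠ 0) (hh : IsCoc h) (hfin : FinLevel h) :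
    ∃ b : Qb, b ≠ 0 ∧ ∀ σ : GQ, σ b = h σ * b := by
  obtain ⟨F, hF, hF1⟩ := hfin
  obtain ⟨b, hb0, hb⟩ := Fermat.Agent.S36.Desc.hilbert90_finite_level (K := ℚ) (Ω := Qb) (F := Qb)
    (fun σ => σ.toRingEquiv) (fun σ c => rfl) ⊤ h (fun σ _ => hne σ)
    (fun σ _ τ _ => by
      rw [hh σ τ, mul_comm]
      rfl) F (fun σ _ hσ => hF1 σ hσ)
  refine ⟨b⁻¹, inv_ne_zero hb0, fun σ => ?_⟩
  have h1 : σ b * h σ = b := hb σ (Subgroup.mem_top σ)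
  have h2 : σ b ≠ 0 := (map_ne_zero σ).2 hb0
  have h3 : b⁻¹ = (σ b)⁻¹ * (h σ)⁻¹ := by rw [← mul_inv, h1]
  rw [map_inv₀, h3, mul_comm (σ b)⁻¹, ← mul_assoc, mul_inv_cancel₀ (hne σ), one_mul]

theorem exists_kummer_inertia (A : ValuationSubring Qb) (h : GQ → Qb)
    (hne : ∀ σ ∈ A.inertiaSubgroupIn ℚ, h σ ≠ 0)
    (hh : ∀ σ ∈ A.inertiaSubgroupIn ℚ, ∀ τ ∈ A.inertiaSubgroupIn ℚ, h (σ * τ) = h σ * σ (h τ))
    (hfin : FinLevel h) :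
    ∃ b : Qb, b ≠ 0 ∧ ∀ σ ∈ A.inertiaSubgroupIn ℚ, σ b = h σ * b := by
  obtain ⟨F, hF, hF1⟩ := hfin
  obtain ⟨b, hb0, hb⟩ := Fermat.Agent.S36.Desc.hilbert90_finite_level (K := ℚ) (Ω := Qb) (F := Qb)
    (fun σ => σ.toRingEquiv) (fun σ c => rfl) (A.inertiaSubgroupIn ℚ) h hne
    (fun σ hσ τ hτ => by
      rw [hh σ hσ τ hτ, mul_comm]
      rfl) F (fun σ _ hσ => hF1 σ hσ)
  refine ⟨b⁻¹, inv_ne_zero hb0, fun σ hσ => ?_⟩
  have h1 : σ b * h σ = b := hb σ hσ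
  have h2 : σ b ≠ 0 := (map_ne_zero σ).2 hb0
  have h3 : b⁻¹ = (σ b)⁻¹ * (h σ)⁻¹ := by rw [← mul_inv, h1]
  rw [map_inv₀, h3, mul_comm (σ b)⁻¹, ← mul_assoc, mul_inv_cancel₀ (hne σ hσ), one_mul]

theorem pow_mem_rat (r : ℕ) (h : GQ → Qb) (hr : ∀ σ, h σ ^ r = 1) (b : Qb) (hb : b ≠ 0)
    (hσ : ∀ σ : GQ, σ b = h σ * b) : ∃ a : ℚ, a ≠ 0 ∧ algebraMap ℚ Qb a = b ^ r := by
  have : IsGalois ℚ Qb := Fermat.Agent.Lib.Frobenius.isGalois_rat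
  have hfix : ∀ σ : GQ, σ (b ^ r) = b ^ r := by
    intro σ
    rw [map_pow, hσ σ, mul_pow, hr σ, one_mul]
  have hmem : b ^ r ∈ (⊥ : IntermediateField ℚ Qb) := (InfiniteGalois.mem_bot_iff_fixed _).2 hfix
  obtain ⟨a, ha⟩ := IntermediateField.mem_bot.1 hmem
  refine ⟨a, ?_, ha⟩
  intro h0
  rw [h0, map_zero] at ha
  exact pow_ne_zero r hb ha.symm

theorem pow_mem_K0 (A : ValuationSubring Qb) (r : ℕ) (h : GQ → Qb)
    (hr : ∀ σ ∈ A.inertiaSubgroupIn ℚ, h σ ^ r = 1) (b : Qb)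
    (hσ : ∀ σ ∈ A.inertiaSubgroupIn ℚ, σ b = h σ * b) : b ^ r ∈ K0 A := by
  rw [mem_K0_iff]
  intro σ hσ'
  rw [map_pow, hσ σ hσ', mul_pow, hr σ hσ', one_mul]

end Fermat.Agent.S15.Q
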