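import Mathlib

/-!
# S15/Q node Q4 (Mathlib only): rational numbers whose valuations are divisible by `r`

* `nat_eq_pow`: `n ≠ 0`, `r ∣ n.factorization p` for all `p` implies `n = m ^ r`
  (`m := n.factorization.prod fun p e => p ^ (e / r)`, `Nat.factorization_prod_pow_eq_self`, or `Nat.eq_of_factorization_eq`).
* `rat_eq_pow`: numerator and denominator are coprime, so `padicValRat p a = padicValNat p num - padicValNat p den` with at most
  one nonzero term.
* `rat_eq_pow_mul`: apply `rat_eq_pow` to `a / N ^ (v_N(a) % r)`-type quotient: `k := (padicValRat N a % r).toNat`.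
-/

set_option autoImplicit false

namespace Fermat.Agent.S15.Q

theorem nat_eq_pow (r n : ℕ) (hr : r ≠ 0) (hn : n ≠ 0) (h : ∀ p : ℕ, p.Prime → r ∣ n.factorization p) :
    ∃ m : ℕ, m ≠ 0 ∧ n = m ^ r := by
  have hpr : ∀ p ∈ n.factorization.support, p.Prime := fun p hp =>
    Nat.prime_of_mem_primeFactors (by simpa using hp)
  refine ⟨n.factorization.prod fun p e => p ^ (e / r), ?_, ?_⟩
  · rw [Finsupp.prod]
    exact Finset.prod_ne_zero_iff.2 fun p hp => pow_ne_zero _ (hpr p hp).ne_zero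
  · conv_lhs => rw [← Nat.prod_factorization_pow_eq_self hn]
    rw [Finsupp.prod, Finsupp.prod, ← Finset.prod_pow]
    refine Finset.prod_congr rfl fun p hp => ?_
    rw [← pow_mul, Nat.div_mul_cancel (h p (hpr p hp))]

theorem rat_eq_pow (r : ℕ) (hr : r ≠ 0) (a : ℚ) (ha : a ≠ 0)
    (h : ∀ p : ℕ, p.Prime → (r : ℤ) ∣ padicValRat p a) :
    ∃ y : ℚ, y ≠ 0 ∧ (a = y ^ r ∨ a = - y ^ r) := by
  have hnum : a.num.natAbs ≠ 0 := by
    rw [Int.natAbs_ne_zero]; exact Rat.num_ne_zero.2 ha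
  have hden : a.den ≠ 0 := a.den_nz
  have hcop : Nat.Coprime a.num.natAbs a.den := a.reduced
  have key : ∀ p : ℕ, p.Prime → r ∣ a.num.natAbs.factorization p ∧ r ∣ a.den.factorization p := by
    intro p hp
    have hv := h p hp
    rw [padicValRat_def, padicValInt] at hv
    rw [Nat.factorization_def _ hp, Nat.factorization_def _ hp]
    by_cases hpd : p ∣ a.den
    · have hpn : ¬ p ∣ a.num.natAbs := fun hpn =>
        hp.one_lt.ne' (Nat.eq_one_of_dvd_coprimes hcop hpn hpd)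
      rw [padicValNat.eq_zero_of_not_dvd hpn] at hv ⊢
      refine ⟨dvd_zero _, ?_⟩
      rw [Nat.cast_zero, zero_sub, dvd_neg] at hv
      exact_mod_cast hv
    · rw [padicValNat.eq_zero_of_not_dvd hpd] at hv ⊢
      refine ⟨?_, dvd_zero _⟩
      rw [Nat.cast_zero, sub_zero] at hv
      exact_mod_cast hv
  obtain ⟨m₁, hm₁, e₁⟩ := nat_eq_pow r _ hr hnum fun p hp => (key p hp).1
  obtain ⟨m₂, hm₂, e₂⟩ := nat_eq_pow r _ hr hden fun p hp => (key p hp).2
  have hm₁' : (m₁ : ℚ) ≠ 0 := by exact_mod_cast hm₁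
  have hm₂' : (m₂ : ℚ) ≠ 0 := by exact_mod_cast hm₂
  refine ⟨(m₁ : ℚ) / m₂, div_ne_zero hm₁' hm₂', ?_⟩
  have ha' : a = (a.num : ℚ) / (a.den : ℚ) := (Rat.num_div_den a).symm
  have hd : (a.den : ℚ) = (m₂ : ℚ) ^ r := by exact_mod_cast e₂
  rcases Int.natAbs_eq a.num with hs | hs
  · left
    have hn : (a.num : ℚ) = (m₁ : ℚ) ^ r := by
      rw [hs, e₁]; push_cast; rfl
    rw [div_pow, ← hn, ← hd]; exact ha'
  · right
    have hn : (a.num : ℚ) = - (m₁ : ℚ) ^ r := by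
      rw [hs, e₁]; push_cast; rfl
    rw [div_pow, ← neg_div, ← hn, ← hd]; exact ha'

theorem rat_eq_pow_mul (r N : ℕ) (hr : r ≠ 0) (hN : N.Prime) (a : ℚ) (ha : a ≠ 0)
    (h : ∀ p : ℕ, p.Prime → p ≠ N → (r : ℤ) ∣ padicValRat p a) :
    ∃ (k : ℕ) (y : ℚ), k < r ∧ y ≠ 0 ∧ (a = (N : ℚ) ^ k * y ^ r ∨ a = - ((N : ℚ) ^ k * y ^ r)) := by
  have hr' : (0 : ℤ) < r := by exact_mod_cast Nat.pos_of_ne_zero hr
  set v : ℤ := padicValRat N a with hv
  set k : ℕ := (v % r).toNat with hk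
  have hk0 : (k : ℤ) = v % r := Int.toNat_of_nonneg (Int.emod_nonneg _ hr'.ne')
  have hkr : k < r := by
    have : (k : ℤ) < r := by rw [hk0]; exact Int.emod_lt_of_pos _ hr'
    exact_mod_cast this
  have hNQ : (N : ℚ) ≠ 0 := by exact_mod_cast hN.ne_zero
  have hb : a / (N : ℚ) ^ k ≠ 0 := div_ne_zero ha (pow_ne_zero _ hNQ)
  obtain ⟨y, hy, hy'⟩ := rat_eq_pow r hr (a / (N : ℚ) ^ k) hb (by
    intro p hp
    have : Fact p.Prime := ⟨hp⟩
    rw [padicValRat.div ha (pow_ne_zero _ hNQ), padicValRat.pow, padicValRat.of_nat]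
    by_cases hpN : p = N
    · subst hpN
      rw [padicValNat_self, Nat.cast_one, mul_one, hk0, ← hv]
      exact Int.dvd_self_sub_emod
    · have : Fact N.Prime := ⟨hN⟩
      rw [padicValNat_primes hpN, Nat.cast_zero, mul_zero, sub_zero]
      exact h p hp hpN)
  refine ⟨k, y, hkr, hy, ?_⟩
  have hpk : (N : ℚ) ^ k ≠ 0 := pow_ne_zero _ hNQ
  rcases hy' with e | e
  · left
    rw [← e]; field_simp
  · right
    rw [← mul_neg, ← e]; field_simp

end Fermat.Agent.S15.Q
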