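import Fermat.Agent.S15.Q.Hilbert
import Fermat.Agent.S15.Q.Rational

/-!
# S15/Q node Q5: the `μ_r`-valued cocycles of `G_ℚ` whose Kummer generators have valuations divisible by `r` outside `N`

`ξ` a primitive root of unity of order `xiOrder r` (`r` if `r` is odd, `4` if `r = 2`), `ν ^ r = N`.
`exists_kummer_global` gives `b`, `pow_mem_rat` gives `a = b ^ r ∈ ℚˣ`; `hval ℓ` applied to `(b, a)` gives `r ∣ v_ℓ(a)` for all `ℓ ≠ N`;
`rat_eq_pow_mul`: `a = ± N ^ k y ^ r`; then `exists_pow_mul_of_pow_eq` with `c = ν ^ k`.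
`exists_pow_mul_of_pow_eq`:
* `r` odd: `± y ^ r = (± y) ^ r`, so `(b / (c * y')) ^ r = 1`, `b = ξ ^ j * c * y'` (`IsPrimitiveRoot.eq_pow_of_pow_eq_one`).
* `r = 2`: `(b / (c * y)) ^ 4 = 1`, `b = ξ ^ j' * c * y`, `j' < 4`, `ξ ^ 2 = -1` is rational: `j := j' % 2`.
In both cases `b = (ξ ^ j * c) * (rational)`, and `σ` fixes rationals, so `σ (ξ^j c) / (ξ^j c) = σ b / b = h σ`.
`exists_kummer_form_unr`: the same with `rat_eq_pow` (`c = 1`).
-/

set_option autoImplicit false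

namespace Fermat.Agent.S15.Q

open Fermat.Agent.Lib.InertiaField

/-- auxiliary: `b ^ n = d ^ n`, `d ≠ 0`, `ξ` primitive of order `n`: `b = ξ ^ j * d`. -/
theorem kummer_aux_eq_pow_mul {n : ℕ} [NeZero n] {ξ : Qb} (hξ : IsPrimitiveRoot ξ n) {b d : Qb}
    (hd : d ≠ 0) (h : b ^ n = d ^ n) : ∃ j < n, b = ξ ^ j * d := by
  have h1 : (b / d) ^ n = 1 := by
    rw [div_pow, h, div_self (pow_ne_zero _ hd)]
  obtain ⟨j, hj, hj'⟩ := hξ.eq_pow_of_pow_eq_one h1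
  exact ⟨j, hj, by rw [hj', div_mul_cancel₀ _ hd]⟩

/-- the case where `b ^ r` is known -/
theorem exists_pow_mul_of_pow_eq (r : ℕ) (hr : r.Prime) (ξ : Qb) (hξ : IsPrimitiveRoot ξ (xiOrder r))
    (b c : Qb) (hc : c ≠ 0) (y : ℚ) (hy : y ≠ 0)
    (h : b ^ r = c ^ r * algebraMap ℚ Qb y ^ r ∨ b ^ r = - (c ^ r * algebraMap ℚ Qb y ^ r)) :
    ∃ (j : ℕ) (z : ℚ), j < r ∧ z ≠ 0 ∧ b = ξ ^ j * c * algebraMap ℚ Qb z := by
  have hy' : algebraMap ℚ Qb y ≠ 0 := by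
    rwa [Ne, map_eq_zero]
  by_cases h2 : r = 2
  · subst h2
    have hξ4 : IsPrimitiveRoot ξ 4 := by simpa [xiOrder] using hξ
    have hsq : ξ ^ 2 = -1 := by
      have h4 : ξ ^ 4 = 1 := hξ4.pow_eq_one
      have hne : ξ ^ 2 ≠ 1 := hξ4.pow_ne_one_of_pos_of_lt (by norm_num) (by norm_num)
      have h5 : (ξ ^ 2 - 1) * (ξ ^ 2 + 1) = 0 := by ring_nf; rw [h4]; ring
      rcases mul_eq_zero.1 h5 with h6 | h6
      · exact absurd (sub_eq_zero.1 h6) hne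
      · exact eq_neg_of_add_eq_zero_left h6
    have hd : c * algebraMap ℚ Qb y ≠ 0 := mul_ne_zero hc hy'
    have h4 : b ^ 4 = (c * algebraMap ℚ Qb y) ^ 4 := by
      have : b ^ 4 = (b ^ 2) ^ 2 := by ring
      rw [this]
      rcases h with h | h <;> rw [h] <;> ring
    obtain ⟨j, hj, hb⟩ := kummer_aux_eq_pow_mul hξ4 hd h4
    have hneg : algebraMap ℚ Qb (-y) = - algebraMap ℚ Qb y := map_neg _ _
    interval_cases j
    · exact ⟨0, y, by norm_num, hy, by rw [hb]; ring⟩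
    · exact ⟨1, y, by norm_num, hy, by rw [hb]; ring⟩
    · refine ⟨0, -y, by norm_num, neg_ne_zero.2 hy, ?_⟩
      rw [hb, hsq, hneg]; ring
    · refine ⟨1, -y, by norm_num, neg_ne_zero.2 hy, ?_⟩
      have h3 : ξ ^ 3 = ξ ^ 2 * ξ := by ring
      rw [hb, h3, hsq, hneg]; ring
  · have hξr : IsPrimitiveRoot ξ r := by simpa [xiOrder, h2] using hξ
    have : NeZero r := ⟨hr.ne_zero⟩
    have hodd : Odd r := hr.odd_of_ne_two h2
    rcases h with h | h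
    · obtain ⟨j, hj, hb⟩ := kummer_aux_eq_pow_mul hξr (mul_ne_zero hc hy')
        (by rw [h, mul_pow] : b ^ r = (c * algebraMap ℚ Qb y) ^ r)
      exact ⟨j, y, hj, hy, by rw [hb, mul_assoc]⟩
    · have hneg : algebraMap ℚ Qb (-y) = - algebraMap ℚ Qb y := map_neg _ _
      have hy'' : algebraMap ℚ Qb (-y) ≠ 0 := by rw [hneg]; exact neg_ne_zero.2 hy'
      obtain ⟨j, hj, hb⟩ := kummer_aux_eq_pow_mul hξr (mul_ne_zero hc hy'')
        (by rw [h, mul_pow, hneg, hodd.neg_pow, mul_neg] :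
          b ^ r = (c * algebraMap ℚ Qb (-y)) ^ r)
      exact ⟨j, -y, hj, neg_ne_zero.2 hy, by rw [hb, mul_assoc]⟩

/-- auxiliary: transport of the Kummer relation along `b = u * z`, `z` rational -/
theorem kummer_aux_transport (h : GQ → Qb) {b u : Qb} {z : ℚ} (hz : z ≠ 0)
    (hb : b = u * algebraMap ℚ Qb z) (hσ : ∀ σ : GQ, σ b = h σ * b) (σ : GQ) :
    σ u = h σ * u := by
  have hz' : algebraMap ℚ Qb z ≠ 0 := by rwa [Ne, map_eq_zero]
  have h1 := hσ σ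
  rw [hb, map_mul, AlgEquiv.commutes, ← mul_assoc] at h1
  exact mul_right_cancel₀ hz' h1

theorem exists_kummer_form (r N : ℕ) (hr : r.Prime) (hN : N.Prime)
    (ξ ν : Qb) (hξ : IsPrimitiveRoot ξ (xiOrder r)) (hν : ν ^ r = (N : Qb))
    (h : GQ → Qb) (hpow : ∀ σ, h σ ^ r = 1) (hcoc : IsCoc h) (hfin : FinLevel h)
    (hval : ∀ ℓ : ℕ, ℓ.Prime → ℓ ≠ N → ValDvd r ℓ h) :
    ∃ j k : ℕ, j < r ∧ k < r ∧ ∀ σ : GQ, σ (ξ ^ j * ν ^ k) = h σ * (ξ ^ j * ν ^ k) := by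
  have hne : ∀ σ, h σ ≠ 0 := by
    intro σ h0
    have := hpow σ
    rw [h0, zero_pow hr.ne_zero] at this
    exact zero_ne_one this
  obtain ⟨b, hb0, hb⟩ := exists_kummer_global h hne hcoc hfin
  obtain ⟨a, ha0, ha⟩ := pow_mem_rat r h hpow b hb0 hb
  obtain ⟨k, y, hk, hy, hay⟩ := rat_eq_pow_mul r N hr.ne_zero hN a ha0
    (fun p hp hpN => hval p hp hpN b a ha0 ha hb)
  have hν0 : ν ≠ 0 := by
    intro h0
    rw [h0, zero_pow hr.ne_zero] at hν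
    exact (Nat.cast_ne_zero.2 hN.ne_zero) hν.symm
  have hc : (ν ^ k) ^ r = algebraMap ℚ Qb ((N : ℚ) ^ k) := by
    rw [← pow_mul, mul_comm, pow_mul, hν, map_pow, map_natCast]
  obtain ⟨j, z, hj, hz, hbz⟩ := exists_pow_mul_of_pow_eq r hr ξ hξ b (ν ^ k) (pow_ne_zero _ hν0) y hy
    (by
      rw [← ha, hc, ← map_pow, ← map_mul, ← map_neg]
      rcases hay with h1 | h1
      · exact Or.inl (by rw [h1])
      · exact Or.inr (by rw [h1]))
  exact ⟨j, k, hj, hk, kummer_aux_transport h hz hbz hb⟩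

theorem exists_kummer_form_unr (r : ℕ) (hr : r.Prime)
    (ξ : Qb) (hξ : IsPrimitiveRoot ξ (xiOrder r))
    (h : GQ → Qb) (hpow : ∀ σ, h σ ^ r = 1) (hcoc : IsCoc h) (hfin : FinLevel h)
    (hval : ∀ ℓ : ℕ, ℓ.Prime → ValDvd r ℓ h) :
    ∃ j : ℕ, j < r ∧ ∀ σ : GQ, σ (ξ ^ j) = h σ * ξ ^ j := by
  have hne : ∀ σ, h σ ≠ 0 := by
    intro σ h0
    have := hpow σ
    rw [h0, zero_pow hr.ne_zero] at this
    exact zero_ne_one this
  obtain ⟨b, hb0, hb⟩ := exists_kummer_global h hne hcoc hfin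
  obtain ⟨a, ha0, ha⟩ := pow_mem_rat r h hpow b hb0 hb
  obtain ⟨y, hy, hay⟩ := rat_eq_pow r hr.ne_zero a ha0
    (fun p hp => hval p hp b a ha0 ha hb)
  obtain ⟨j, z, hj, hz, hbz⟩ := exists_pow_mul_of_pow_eq r hr ξ hξ b 1 one_ne_zero y hy
    (by
      rw [← ha, one_pow, one_mul, ← map_pow, ← map_neg]
      rcases hay with h1 | h1
      · exact Or.inl (by rw [h1])
      · exact Or.inr (by rw [h1]))
  rw [mul_one] at hbz
  exact ⟨j, hj, kummer_aux_transport h hz hbz hb⟩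

end Fermat.Agent.S15.Q
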