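import Mathlib
import Fermat.Agent.S13.MinkowskiMain
import Fermat.Agent.Lib.InertiaField.Defs

/-!
# S15, block Q (global `H¹` over `ℚ`), node Q1: everywhere unramified homomorphisms are trivial

Consequence of the Minkowski bridge `S13.Minkowski.eq_top_of_inertia_le`.
-/

set_option autoImplicit false

namespace Fermat.Agent.S15.Q

open Fermat.Agent.Lib.InertiaField

/-- (Q1) a homomorphism of finite level from `Gal(ℚ̄/ℚ)` which kills one inertia subgroup over every
prime is trivial. -/
theorem hom_eq_one_of_unramified {G : Type*} [Group G] (c : GQ →* G)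
    (F : IntermediateField ℚ Qb) [FiniteDimensional ℚ F] (hF : F.fixingSubgroup ≤ c.ker)
    (h : ∀ q : ℕ, q.Prime → ∃ A : ValuationSubring Qb, A.LiesOverPrime q ∧
      A.inertiaSubgroupIn ℚ ≤ c.ker) : c = 1 := by
  have htop : c.ker = ⊤ := Fermat.Agent.S13.Minkowski.eq_top_of_inertia_le c.ker F hF h
  exact (MonoidHom.ker_eq_top_iff).1 htop

/-- (Q1, additive function form). -/
theorem addHom_eq_zero_of_unramified {L : Type*} [AddGroup L] (c : GQ → L)
    (hc : ∀ σ τ, c (σ * τ) = c σ + c τ)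
    (F : IntermediateField ℚ Qb) [FiniteDimensional ℚ F]
    (hF : ∀ σ : GQ, (∀ x ∈ F, σ x = x) → c σ = 0)
    (h : ∀ q : ℕ, q.Prime → ∃ A : ValuationSubring Qb, A.LiesOverPrime q ∧
      ∀ σ ∈ A.inertiaSubgroupIn ℚ, c σ = 0) (σ : GQ) : c σ = 0 := by
  have h1 : c 1 = 0 := by
    have := hc 1 1
    rw [mul_one] at this
    exact (add_eq_left.1 this.symm)
  let c' : GQ →* Multiplicative L :=
    { toFun := fun σ => Multiplicative.ofAdd (c σ)
      map_one' := by rw [h1]; rfl
      map_mul' := fun σ τ => by rw [hc]; rfl }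
  have hker : ∀ σ, σ ∈ c'.ker ↔ c σ = 0 := fun σ => by
    rw [MonoidHom.mem_ker]
    exact Iff.rfl
  have := hom_eq_one_of_unramified c' F
    (fun σ hσ => (hker σ).2 (hF σ fun x hx => by
      have := (IntermediateField.mem_fixingSubgroup_iff F σ).1 hσ x hx
      exact this))
    (fun q hq => by
      obtain ⟨A, hA, hAI⟩ := h q hq
      exact ⟨A, hA, fun σ hσ => (hker σ).2 (hAI σ hσ)⟩)
  have h2 : c' σ = 1 := by rw [this]; rfl
  exact h2

end Fermat.Agent.S15.Q
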